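import Fermat.Agent.TWPrimes.Interface
import Fermat.Agent.TWPrimes.Image.Vanishing

/-!
# The image of a residual representation
-/

set_option autoImplicit false
set_option linter.unusedSectionVars false

noncomputable section

open scoped Pointwise

namespace FLTAgent.TWPrimes

open FLTAgent.PoitouTate

local notation "LL" => AlgebraicClosure ℚ
local notation "GG" => (AlgebraicClosure ℚ ≃ₐ[ℚ] AlgebraicClosure ℚ)

variable {p : ℕ} [Fact p.Prime]

/-- The cyclotomic character on a root of unity. -/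
theorem apply_pow_om {ζ : LL} (hζ : ζ ^ p = 1) (σ : GG) : σ ζ = ζ ^ (om p σ).val := by
  haveI : NeZero p := ⟨(Fact.out : p.Prime).ne_zero⟩
  have hζ0 : ζ ≠ 0 := fun h => by
    rw [h, zero_pow (NeZero.ne p)] at hζ
    exact zero_ne_one hζ
  have ht : Units.mk0 ζ hζ0 ∈ rootsOfUnity p LL := by
    rw [mem_rootsOfUnity]
    exact Units.ext (by rw [Units.val_pow_eq_pow_val, Units.val_mk0, hζ, Units.val_one])
  exact modularCyclotomicCharacter.spec LL (hn := ExtCitation.card_rootsOfUnity_eq_self p) (σ : LL ≃+* LL) ht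

theorem om_eq_one_of_fix {ζ : LL} (hζ : IsPrimitiveRoot ζ p) {σ : GG} (h : σ ζ = ζ) :
    om p σ = 1 := by
  haveI : NeZero p := ⟨(Fact.out : p.Prime).ne_zero⟩
  haveI : Fact (1 < p) := ⟨(Fact.out : p.Prime).one_lt⟩
  have h1 := apply_pow_om hζ.pow_eq_one σ
  rw [h] at h1
  refine ZMod.val_injective p (hζ.pow_inj (ZMod.val_lt _) (ZMod.val_lt _) ?_)
  rw [ZMod.val_one, pow_one, ← h1]

/-- Every non zero residue is a value of the cyclotomic character. -/
theorem exists_om (a : ZMod p) (ha : a ≠ 0) : ∃ σ : GG, om p σ = a := by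
  haveI : NeZero p := ⟨(Fact.out : p.Prime).ne_zero⟩
  haveI : Algebra.IsAlgebraic ℚ LL := AlgebraicClosure.isAlgebraic ℚ
  haveI : IsAlgClosure ℚ LL := ⟨inferInstance, inferInstance⟩
  haveI : Normal ℚ LL := IsAlgClosure.normal ℚ _
  obtain ⟨ζ, hζ⟩ := exists_primitive_root p
  have hc : ¬ p ∣ a.val := fun h => ha (by
    rw [← ZMod.natCast_zmod_val a]
    exact (ZMod.natCast_eq_zero_iff _ _).2 h)
  have hp : 0 < p := (Fact.out : p.Prime).pos
  have hc' := hζ.pow_of_coprime a.val ((((Fact.out : p.Prime).coprime_iff_not_dvd).2 hc).symm)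
  have h1 : minpoly ℚ ζ = minpoly ℚ (ζ ^ a.val) :=
    (Polynomial.cyclotomic_eq_minpoly_rat hζ hp).symm.trans
      (Polynomial.cyclotomic_eq_minpoly_rat hc' hp)
  obtain ⟨σ, hσ⟩ := minpoly.exists_algEquiv_of_root' (Algebra.IsAlgebraic.isAlgebraic ζ)
    (by rw [h1]; exact minpoly.aeval ℚ _)
  refine ⟨σ, ZMod.val_injective p (hζ.pow_inj (ZMod.val_lt _) (ZMod.val_lt _) ?_)⟩
  rw [← apply_pow_om hζ.pow_eq_one σ, hσ]

variable {k : Type} [Field k] [Algebra (ZMod p) k] (D : Datum p k)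

local notation "M2" => Matrix (Fin 2) (Fin 2) k

theorem charP_coeff : CharP k p :=
  charP_of_injective_algebraMap (algebraMap (ZMod p) k).injective p

theorem adM_eq (e : ℕ) (σ : GG) (A : M2) : adM D e σ A = Image.adj e (D.rb σ) A := by
  rw [adM, Image.adj_apply, D.det_cyclo, map_pow]

theorem ad_val (e : ℕ) (σ : GG) (A : W k) :
    (ad D e σ A).1 = Image.adj e (D.rb σ) A.1 := adM_eq D e σ A.1

theorem big : Image.Big D.rb.range := by
  refine ⟨fun v hv => ?_, fun H hH hidx v hv => ?_, ?_⟩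
  · obtain ⟨σ, hσ⟩ := D.irred v hv
    exact ⟨D.rb σ, ⟨σ, rfl⟩, hσ⟩
  · obtain ⟨σ, hσ, hv'⟩ := D.irred_two (H.comap D.rb) (by rw [Subgroup.index_comap, hidx]) v hv
    exact ⟨D.rb σ, hσ, hv'⟩
  · rintro _ ⟨σ, rfl⟩
    obtain ⟨a, b, h1, h2⟩ := D.split σ
    exact ⟨a, by rw [h1, h2]; ring⟩

theorem det_surj [CharP k p] (a : ZMod p) (ha : a ≠ 0) :
    ∃ g ∈ D.rb.range, Matrix.det (g : M2) = ZMod.castHom (dvd_refl p) k a := by
  obtain ⟨σ, hσ⟩ := exists_om a ha
  exact ⟨_, ⟨σ, rfl⟩, by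
    rw [D.det_cyclo, hσ, Subsingleton.elim (algebraMap (ZMod p) k) (ZMod.castHom (dvd_refl p) k)]⟩

/-- A cocycle trivial on the kernel is a coboundary. -/
theorem cyc_aux [Finite k] (e : ℕ) (c : GG → W k)
    (hc : ∀ g h, c (g * h) = c g + ad D e g (c h)) (hker : ∀ n, D.rb n = 1 → c n = 0)
    (hyp : e = 1 ∨ ∀ g, ∃ m : W k, c g = ad D e g m - m) :
    c ∈ B1 (ad D e) (MonoidHom.id GG) := by
  classical
  haveI := charP_coeff (p := p) (k := k)
  let c' : GL (Fin 2) k → M2 := fun g => if h : g ∈ D.rb.range then (c h.choose).1 else 0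
  have hfac : ∀ a b : GG, D.rb a = D.rb b → c a = c b := fun a b hab => by
    have h0 := hker (b⁻¹ * a) (by rw [map_mul, map_inv, hab, inv_mul_cancel])
    rw [show a = b * (b⁻¹ * a) by group, hc, h0, map_zero, add_zero]
  have hc' : ∀ σ, c' (D.rb σ) = (c σ).1 := fun σ => by
    have h : D.rb σ ∈ D.rb.range := ⟨σ, rfl⟩
    simp only [c', dif_pos h]
    exact congrArg Subtype.val (hfac _ _ h.choose_spec)
  obtain ⟨m, hm, h⟩ := Image.cocycle_eq_bdy p D.ne_two (big D) e c'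
    (fun g hg => by
      obtain ⟨σ, rfl⟩ := hg
      rw [hc']
      exact LinearMap.mem_ker.1 (c σ).2)
    (fun g hg h hh => by
      obtain ⟨σ, rfl⟩ := hg
      obtain ⟨τ, rfl⟩ := hh
      rw [← map_mul, hc', hc', hc', hc, Submodule.coe_add, ad_val])
    (hyp.imp (fun he => ⟨he, fun a ha => det_surj D a ha⟩) fun hcyc g hg => by
      obtain ⟨σ, rfl⟩ := hg
      obtain ⟨m, hm⟩ := hcyc σ
      exact ⟨m.1, by rw [hc', hm, Submodule.coe_sub, ad_val]⟩)
  refine ⟨⟨m, hm⟩, funext fun σ => Subtype.ext ?_⟩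
  rw [d0_apply, Submodule.coe_sub, MonoidHom.id_apply, ad_val, ← h _ ⟨σ, rfl⟩, hc']

/-- The classes of the image. -/
theorem targetCyc : TargetCyc := by
  intro p _ k _ _ _ D
  exact ⟨fun c hc hker hcyc => cyc_aux D 0 c hc (fun n hn => hker n hn) (Or.inr hcyc),
    fun c hc hker => cyc_aux D 1 c hc hker (Or.inl rfl)⟩

end FLTAgent.TWPrimes
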